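/-
S15, node oo-1 (isotropy at infinity), abstract part.  Owner: helper75.

`K` algebraically closed of characteristic zero, `F` a function field over `K`, `c` a semilinear
involution of `F` ("complex conjugation") such that `w * conj w ≠ -1` for all `w : K`, and `v₀` a
place fixed by `c` ("a real point").  If `2 R` and `2 R'` are `c`-invariant classes then
`e₂(c R - R, c R' - R') = 1`  (Tate local duality at the real place, by hand).

Proof: `2 (c D - D) = div φ` with `φ * c φ = 1` (normalise by the value at `v₀`), Hilbert 90: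
`φ = c k / k` with `k` a unit on a prescribed finite set; then
`e₂ = w * conj w` with `w = k(D') k'(c D) / (k(c D') k'(D))`, and `e₂ = ± 1`.
-/
import Fermat.Agent.S19.Weil.Nondeg

set_option autoImplicit false

noncomputable section

namespace Fermat.Agent.S15.Oo

open AlgebraicCurve Fermat.Agent.S24.FF Fermat.Agent.S27 Fermat.Agent.S19.Weil

section Field

variable {K : Type*} [Field K] [CharZero K]

/-- Avoiding finitely many "real lines": there is `θ` with `θ + conj θ * b ≠ 0` for all `b ∈ s`. -/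
theorem exists_theta (σ : K ≃+* K) (i : K) (hi : σ i = -i) (hi0 : i ≠ 0) (s : Finset K) :
    ∃ θ : K, ∀ b ∈ s, θ + σ θ * b ≠ 0 := by
  classical
  -- `θ = n + i`
  have key : ∀ b : K, {n : ℕ | ((n : K) + i) + σ ((n : K) + i) * b = 0}.Subsingleton := by
    intro b n hn m hm
    have hn' : ((n : K) + i) + ((n : K) - i) * b = 0 := by
      have := hn
      simp only [Set.mem_ofPred_eq, map_add, map_natCast, hi] at this
      linear_combination this
    have hm' : ((m : K) + i) + ((m : K) - i) * b = 0 := by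
      have := hm
      simp only [Set.mem_ofPred_eq, map_add, map_natCast, hi] at this
      linear_combination this
    have h1 : ((n : K) - (m : K)) * (1 + b) = 0 := by linear_combination hn' - hm'
    rcases mul_eq_zero.1 h1 with h | h
    · exact_mod_cast sub_eq_zero.1 h
    · exfalso
      have hb : b = -1 := by linear_combination h
      rw [hb] at hn'
      have : (2 : K) * i = 0 := by linear_combination hn'
      rcases mul_eq_zero.1 this with h2 | h2
      · exact two_ne_zero h2
      · exact hi0 h2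
  have hfin : (⋃ b ∈ s, {n : ℕ | ((n : K) + i) + σ ((n : K) + i) * b = 0}).Finite :=
    Set.Finite.biUnion s.finite_toSet fun b _ => (key b).finite
  obtain ⟨n, hn⟩ := hfin.exists_notMem
  refine ⟨(n : K) + i, fun b hb h0 => hn ?_⟩
  simp only [Set.mem_iUnion]
  exact ⟨b, hb, h0⟩

end Field

variable {K F : Type*} [Field K] [Field F] [Algebra K F] [IsAlgClosed K] [CharZero K] [IsFF1 K F]
  [NonConst K F]

omit [IsAlgClosed K] [CharZero K] [IsFF1 K F] [NonConst K F] in
theorem smul_smul_of_invol {c : SemilinearAut K F} (hc : c * c = 1) {α : Type*}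
    [MulAction (SemilinearAut K F) α] (x : α) : c • c • x = x := by
  rw [smul_smul, hc, one_smul]

omit [IsAlgClosed K] [CharZero K] [IsFF1 K F] [NonConst K F] in
theorem inv_eq_of_invol {c : SemilinearAut K F} (hc : c * c = 1) : c⁻¹ = c :=
  inv_eq_of_mul_eq_one_right hc

omit [IsAlgClosed K] [CharZero K] [IsFF1 K F] [NonConst K F] in
theorem baseAut_baseAut {c : SemilinearAut K F} (hc : c * c = 1) (a : K) :
    SemilinearAut.baseAut c (SemilinearAut.baseAut c a) = a := by
  have h : SemilinearAut.baseAut (c * c) a = a := by rw [hc]; rfl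
  exact h

omit [IsFF1 K F] [NonConst K F] in
/-- there is `i` with `conj i = - i`, `i ≠ 0`. -/
theorem exists_imag {c : SemilinearAut K F}
    (hpos : ∀ w : K, w * SemilinearAut.baseAut c w ≠ -1) :
    ∃ i : K, SemilinearAut.baseAut c i = -i ∧ i ≠ 0 := by
  obtain ⟨i, hi⟩ := IsAlgClosed.exists_pow_nat_eq (-1 : K) (n := 2) (by norm_num)
  have hi0 : i ≠ 0 := by
    rintro rfl
    norm_num at hi
  have h2 : (SemilinearAut.baseAut c i) ^ 2 = -1 := by
    rw [← map_pow, hi, map_neg, map_one]
  have h3 : (SemilinearAut.baseAut c i - i) * (SemilinearAut.baseAut c i + i) = 0 := by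
    linear_combination h2 - hi
  rcases mul_eq_zero.1 h3 with h | h
  · exfalso
    apply hpos i
    rw [sub_eq_zero.1 h, ← sq, hi]
  · exact ⟨i, by linear_combination h, hi0⟩

omit [NonConst K F] in
/-- **Hilbert 90 with avoidance.** -/
theorem hilbert90_avoid {c : SemilinearAut K F} (hc : c * c = 1)
    (hpos : ∀ w : K, w * SemilinearAut.baseAut c w ≠ -1) {φ : F} (hφ : φ * c • φ = 1)
    (s : Finset (Place K F)) (hs : ∀ v ∈ s, v.ord φ = 0) :
    ∃ k : F, k ≠ 0 ∧ c • k = φ * k ∧ ∀ v ∈ s, v.ord k = 0 := by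
  classical
  obtain ⟨i, hi, hi0⟩ := exists_imag hpos
  have hφ0 : φ ≠ 0 := left_ne_zero_of_mul_eq_one hφ
  have hcφ0 : c • φ ≠ 0 := right_ne_zero_of_mul_eq_one hφ
  have hcφ : c • φ = φ⁻¹ := eq_inv_of_mul_eq_one_right hφ
  have hs' : ∀ v ∈ s, v.ord (c • φ) = 0 := by
    intro v hv
    rw [hcφ, v.ord_inv, hs v hv, neg_zero]
  -- also avoid `k = 0` when `s` is empty: add nothing, treat separately below
  obtain ⟨θ, hθ⟩ := exists_theta (SemilinearAut.baseAut c) i hi hi0
    (s.image fun v => ev v (c • φ))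
  by_cases hse : s.Nonempty
  · set k : F := algebraMap K F θ + algebraMap K F (SemilinearAut.baseAut c θ) * c • φ with hk
    have hval : ∀ v ∈ s, IsVal v k (θ + SemilinearAut.baseAut c θ * ev v (c • φ)) := by
      intro v hv
      exact (isVal_algebraMap v θ).add
        ((isVal_algebraMap v _).mul (isVal_ev (hs' v hv).ge))
    have hord : ∀ v ∈ s, v.ord k = 0 := fun v hv =>
      ((hval v hv).ord_eq_zero (hθ _ (Finset.mem_image_of_mem _ hv))).2
    have hk0 : k ≠ 0 := by
      obtain ⟨v, hv⟩ := hse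
      exact ((hval v hv).ord_eq_zero (hθ _ (Finset.mem_image_of_mem _ hv))).1
    refine ⟨k, hk0, ?_, hord⟩
    rw [hk, smul_add, smul_mul', SemilinearAut.smul_algebraMap, SemilinearAut.smul_algebraMap,
      baseAut_baseAut hc, smul_smul_of_invol hc, mul_add, ← mul_assoc,
      mul_comm φ (algebraMap K F (SemilinearAut.baseAut c θ)), mul_assoc, hφ, mul_one]
    ring
  · -- `s = ∅`: plain Hilbert 90
    rw [Finset.not_nonempty_iff_eq_empty] at hse
    subst hse
    by_cases h1 : (1 : F) + c • φ = 0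
    · refine ⟨algebraMap K F i, by simpa using hi0, ?_, by simp⟩
      have h2 : φ = -1 := by
        have h3 : c • φ = -1 := by linear_combination h1
        rw [h3] at hφ
        linear_combination -hφ
      rw [SemilinearAut.smul_algebraMap, hi, h2, map_neg]
      ring
    · refine ⟨1 + c • φ, h1, ?_, by simp⟩
      rw [smul_add, smul_one, smul_smul_of_invol hc, mul_add, hφ, mul_one, add_comm]

omit [NonConst K F] in
/-- **Normalisation.**  If `2 R` is `c`-invariant and `D` represents `R` and avoids the real place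
`v₀`, then `2 (c D - D) = div φ` with `φ * c φ = 1`. -/
theorem exists_norm_one {c : SemilinearAut K F} (hc : c * c = 1) {v₀ : Place K F}
    (hv₀ : c • v₀ = v₀) {D : Divisor K F} (hdeg : Divisor.degree D = 0) (hD₀ : D v₀ = 0)
    (hinv : c • ((2 : ℤ) • cls D) = (2 : ℤ) • cls D) :
    ∃ φ : F, IsDivOf ((2 : ℤ) • (c • D - D)) φ ∧ φ * c • φ = 1 := by
  have hdegE : Divisor.degree (c • D - D) = 0 := by
    rw [map_sub, SemilinearAut.degree_smul, hdeg, sub_zero]
  have hinv' : (2 : ℤ) • (c • cls D) = (2 : ℤ) • cls D := by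
    rw [← SemilinearAut.smul_zsmul]
    exact hinv
  have hcls : cls ((2 : ℤ) • (c • D - D)) = 0 := by
    rw [nondeg_cls_zsmul hdegE, cls_sub (by rw [SemilinearAut.degree_smul, hdeg]) hdeg,
      cls_smul c hdeg, zsmul_sub, hinv', sub_self]
  obtain ⟨φ₀, hφ₀⟩ := (cls_eq_zero_iff (by rw [map_zsmul, hdegE, smul_zero])).1 hcls
  have hcv₀ : c⁻¹ • v₀ = v₀ := by rw [inv_eq_of_invol hc, hv₀]
  have hord₀ : v₀.ord φ₀ = 0 := by
    rw [← hφ₀.2, Finsupp.smul_apply, Finsupp.sub_apply, SemilinearAut.divisor_smul_apply, hcv₀,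
      hD₀, sub_zero, smul_zero]
  have hcE : c • (c • D - D) = -(c • D - D) := by
    rw [smul_sub, smul_smul_of_invol hc]
    abel
  have hcφ₀ : IsDivOf ((2 : ℤ) • -(c • D - D)) (c • φ₀) := by
    have h := IsDivOf.smul c hφ₀
    rwa [smul_comm c (2 : ℤ), hcE] at h
  have hprod : ∀ v : Place K F, v.ord (φ₀ * c • φ₀) = 0 := by
    intro v
    rw [v.ord_mul hφ₀.1 hcφ₀.1, ← hφ₀.2, ← hcφ₀.2, smul_neg, Finsupp.neg_apply, add_neg_cancel]
  obtain ⟨lam, hlam⟩ := eq_algebraMap_of_forall_ord_nonneg (K := K) _ (fun v => (hprod v).ge)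
  set a : K := ev v₀ φ₀ with ha
  have ha0 : a ≠ 0 := ev_ne_zero_of_ord_eq_zero hφ₀.1 hord₀
  have hordc : v₀.ord (c • φ₀) = 0 := by
    have h := SemilinearAut.ord_smul c v₀ φ₀
    rw [hv₀] at h
    rw [h, hord₀]
  have hevc : ev v₀ (c • φ₀) = SemilinearAut.baseAut c a := by
    have h := ev_smul c v₀ φ₀
    rwa [hv₀] at h
  have hlam' : lam = a * SemilinearAut.baseAut c a := by
    have h := ev_mul (v := v₀) hord₀.ge hordc.ge
    rw [hlam, ev_algebraMap, hevc] at h
    exact h
  have hca0 : SemilinearAut.baseAut c a ≠ 0 := by simpa using ha0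
  refine ⟨algebraMap K F a⁻¹ * φ₀, ?_, ?_⟩
  · have h := rep_isDivOf_mul (rep_isDivOf_const (F := F) (inv_ne_zero ha0)) hφ₀
    rwa [zero_add] at h
  · rw [smul_mul', SemilinearAut.smul_algebraMap, mul_mul_mul_comm, hlam, hlam', ← map_mul,
      ← map_mul, map_inv₀]
    rw [show a⁻¹ * (SemilinearAut.baseAut c a)⁻¹ * (a * SemilinearAut.baseAut c a) = 1 by
      field_simp, map_one]

omit [NonConst K F] in
/-- Evaluation of `φ = c k / k` on `c D' - D'`. -/
theorem evDiv_conj_sub {c : SemilinearAut K F} (hc : c * c = 1) {φ k : F} (hk : c • k = φ * k)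
    {D' : Divisor K F} (h1 : UnitOn k D') (h2 : UnitOn k (c • D')) :
    evDiv φ (c • D' - D') =
      evDiv k D' * SemilinearAut.baseAut c (evDiv k D') /
        (evDiv k (c • D') * SemilinearAut.baseAut c (evDiv k (c • D'))) := by
  have hk0 : k ≠ 0 := h1.1
  have hφ : φ = c • k * k⁻¹ := by rw [hk, mul_inv_cancel_right₀ hk0]
  have u1 : UnitOn (c • k) (c • D') := h1.smul c
  have u2 : UnitOn (c • k) D' := by
    have h := h2.smul c
    rwa [smul_smul_of_invol hc] at h
  have e1 : evDiv (c • k) (c • D') = SemilinearAut.baseAut c (evDiv k D') := evDiv_smul c k D'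
  have e2 : evDiv (c • k) D' = SemilinearAut.baseAut c (evDiv k (c • D')) := by
    have h := evDiv_smul c k (c • D')
    rwa [smul_smul_of_invol hc] at h
  have hA : evDiv k D' ≠ 0 := h1.evDiv_ne_zero
  have hB : evDiv k (c • D') ≠ 0 := h2.evDiv_ne_zero
  have hcA : SemilinearAut.baseAut c (evDiv k D') ≠ 0 := by simpa using hA
  have hcB : SemilinearAut.baseAut c (evDiv k (c • D')) ≠ 0 := by simpa using hB
  rw [hφ, evDiv_sub (u1.mul h2.inv) (u2.mul h1.inv), evDiv_mul u1 h2.inv, evDiv_mul u2 h1.inv,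
    evDiv_inv h2, evDiv_inv h1, e1, e2]
  field_simp

theorem weil_zero_left {n : ℕ} (hn : 0 < n) {y : Pic0 K F} (hy : (n : ℤ) • y = 0) :
    weil n (0 : Pic0 K F) y = 1 := by
  have h := weil_add_left hn (x := (0 : Pic0 K F)) (x' := 0) (smul_zero _) (smul_zero _) hy
  rw [add_zero] at h
  exact (mul_eq_left₀ (weil_ne_zero hn 0 y)).1 h.symm

/-- **Isotropy at infinity** (abstract form). -/
theorem weil_two_conj_sub {c : SemilinearAut K F} (hc : c * c = 1)
    (hpos : ∀ w : K, w * SemilinearAut.baseAut c w ≠ -1) {v₀ : Place K F} (hv₀ : c • v₀ = v₀)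
    {R R' : Pic0 K F} (hR : c • ((2 : ℤ) • R) = (2 : ℤ) • R)
    (hR' : c • ((2 : ℤ) • R') = (2 : ℤ) • R') :
    weil 2 (c • R - R) (c • R' - R') = 1 := by
  classical
  obtain ⟨D, hdeg, hcls, hD⟩ := nondeg_exists_rep R {v₀}
  have hD₀ : D v₀ = 0 := hD v₀ (Finset.mem_singleton_self _)
  set T : Finset (Place K F) := {v₀} ∪ D.support ∪ (c • D).support with hT
  obtain ⟨D', hdeg', hcls', hD'⟩ := nondeg_exists_rep R' T
  have hinvc : c⁻¹ = c := inv_eq_of_invol hc
  -- `T` is stable under `c`
  have hTc : ∀ v ∈ T, c • v ∈ T := by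
    intro v hv
    rw [hT, Finset.mem_union, Finset.mem_union, Finset.mem_singleton] at hv ⊢
    rcases hv with (rfl | hv) | hv
    · exact Or.inl (Or.inl hv₀)
    · right
      rw [Finsupp.mem_support_iff, SemilinearAut.divisor_smul_apply_smul]
      exact Finsupp.mem_support_iff.1 hv
    · left; right
      rw [Finsupp.mem_support_iff, SemilinearAut.divisor_smul_apply, hinvc] at hv
      exact Finsupp.mem_support_iff.2 hv
  have hcD' : ∀ v ∈ T, (c • D') v = 0 := by
    intro v hv
    rw [SemilinearAut.divisor_smul_apply, hinvc]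
    exact hD' _ (hTc v hv)
  have hv₀T : v₀ ∈ T := by
    rw [hT, Finset.mem_union, Finset.mem_union, Finset.mem_singleton]
    exact Or.inl (Or.inl rfl)
  have hDT : ∀ v, D v ≠ 0 → v ∈ T := fun v hv => by
    rw [hT, Finset.mem_union, Finset.mem_union]
    exact Or.inl (Or.inr (Finsupp.mem_support_iff.2 hv))
  have hcDT : ∀ v, (c • D) v ≠ 0 → v ∈ T := fun v hv => by
    rw [hT, Finset.mem_union]
    exact Or.inr (Finsupp.mem_support_iff.2 hv)
  have hnT : ∀ v, v ∉ T → D v = 0 ∧ (c • D) v = 0 := fun v hv =>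
    ⟨by_contra fun h => hv (hDT v h), by_contra fun h => hv (hcDT v h)⟩
  -- the functions
  obtain ⟨φ, hφ, hφ1⟩ := exists_norm_one hc hv₀ hdeg hD₀ (by rw [hcls]; exact hR)
  obtain ⟨φ', hφ', hφ1'⟩ := exists_norm_one hc hv₀ hdeg' (hD' v₀ hv₀T) (by rw [hcls']; exact hR')
  obtain ⟨k, hk0, hk, hku⟩ := hilbert90_avoid hc hpos hφ1 (D'.support ∪ (c • D').support) (by
    intro v hv
    have hvT : v ∉ T := by
      intro hvT
      rcases Finset.mem_union.1 hv with h | h
      · exact Finsupp.mem_support_iff.1 h (hD' v hvT)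
      · exact Finsupp.mem_support_iff.1 h (hcD' v hvT)
    rw [← hφ.2, Finsupp.smul_apply, Finsupp.sub_apply, (hnT v hvT).1, (hnT v hvT).2, sub_zero,
      smul_zero])
  obtain ⟨k', hk0', hk', hku'⟩ := hilbert90_avoid hc hpos hφ1' (D.support ∪ (c • D).support) (by
    intro v hv
    have hvT : v ∈ T := by
      rcases Finset.mem_union.1 hv with h | h
      · exact hDT v (Finsupp.mem_support_iff.1 h)
      · exact hcDT v (Finsupp.mem_support_iff.1 h)
    rw [← hφ'.2, Finsupp.smul_apply, Finsupp.sub_apply, hD' v hvT, hcD' v hvT, sub_zero,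
      smul_zero])
  have u1 : UnitOn k D' := ⟨hk0, fun v hv =>
    hku v (Finset.mem_union_left _ (Finsupp.mem_support_iff.2 hv))⟩
  have u2 : UnitOn k (c • D') := ⟨hk0, fun v hv =>
    hku v (Finset.mem_union_right _ (Finsupp.mem_support_iff.2 hv))⟩
  have u1' : UnitOn k' D := ⟨hk0', fun v hv =>
    hku' v (Finset.mem_union_left _ (Finsupp.mem_support_iff.2 hv))⟩
  have u2' : UnitOn k' (c • D) := ⟨hk0', fun v hv =>
    hku' v (Finset.mem_union_right _ (Finsupp.mem_support_iff.2 hv))⟩
  -- the representatives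
  have hdegc : Divisor.degree (c • D) = 0 := by rw [SemilinearAut.degree_smul, hdeg]
  have hdegc' : Divisor.degree (c • D') = 0 := by rw [SemilinearAut.degree_smul, hdeg']
  let a : TorsRep 2 (c • R - R) :=
    { D := c • D - D
      f := φ
      deg := by rw [map_sub, hdegc, hdeg, sub_zero]
      cls_eq := by rw [cls_sub hdegc hdeg, cls_smul c hdeg, hcls]
      div := by exact_mod_cast hφ }
  let b : TorsRep 2 (c • R' - R') :=
    { D := c • D' - D'
      f := φ'
      deg := by rw [map_sub, hdegc', hdeg', sub_zero]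
      cls_eq := by rw [cls_sub hdegc' hdeg', cls_smul c hdeg', hcls']
      div := by exact_mod_cast hφ' }
  have hdisj : Disjoint a.D.support b.D.support := by
    rw [Pairing.disjoint_iff]
    intro v hv
    have hvT : v ∈ T := by
      by_contra hvT
      apply hv
      show (c • D - D) v = 0
      rw [Finsupp.sub_apply, (hnT v hvT).1, (hnT v hvT).2, sub_zero]
    show (c • D' - D') v = 0
    rw [Finsupp.sub_apply, hD' v hvT, hcD' v hvT, sub_zero]
  have hW : weil 2 (c • R - R) (c • R' - R') =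
      evDiv φ (c • D' - D') / evDiv φ' (c • D - D) := weil_eq (by norm_num) a b hdisj
  rw [evDiv_conj_sub hc hk u1 u2, evDiv_conj_sub hc hk' u1' u2'] at hW
  set A := evDiv k D' with hA
  set B := evDiv k (c • D') with hB
  set A' := evDiv k' D with hA'
  set B' := evDiv k' (c • D) with hB'
  have hA0 : A ≠ 0 := u1.evDiv_ne_zero
  have hB0 : B ≠ 0 := u2.evDiv_ne_zero
  have hA0' : A' ≠ 0 := u1'.evDiv_ne_zero
  have hB0' : B' ≠ 0 := u2'.evDiv_ne_zero
  have hcA0 : SemilinearAut.baseAut c A ≠ 0 := by simpa using hA0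
  have hcB0 : SemilinearAut.baseAut c B ≠ 0 := by simpa using hB0
  have hcA0' : SemilinearAut.baseAut c A' ≠ 0 := by simpa using hA0'
  have hcB0' : SemilinearAut.baseAut c B' ≠ 0 := by simpa using hB0'
  have hW' : weil 2 (c • R - R) (c • R' - R') =
      (A * B' / (B * A')) * SemilinearAut.baseAut c (A * B' / (B * A')) := by
    rw [hW, map_div₀, map_mul, map_mul]
    field_simp
  -- the square is one
  have hsq : weil 2 (c • R - R) (c • R' - R') * weil 2 (c • R - R) (c • R' - R') = 1 := by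
    rw [← weil_add_left (by norm_num) a.zsmul_eq_zero a.zsmul_eq_zero b.zsmul_eq_zero]
    have h0 : (c • R - R) + (c • R - R) = 0 := by
      have h := a.zsmul_eq_zero
      rw [Nat.cast_ofNat, two_zsmul] at h
      exact h
    rw [h0]
    exact weil_zero_left (by norm_num) b.zsmul_eq_zero
  rcases mul_self_eq_one_iff.1 hsq with h | h
  · exact h
  · exact absurd (hW'.symm.trans h) (hpos _)

end Fermat.Agent.S15.Oo
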