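/-
S15, node oo-1 (isotropy at infinity), instance for `J₀(N)`.  Owner: helper75.

`cc = complexConjugation ∈ G_ℚ`.  If `R, R' ∈ J₀(N)(ℚ̄)` and `2 R`, `2 R'` are fixed by `cc` (e.g.
rational), then `e₂(cc R - R, cc R' - R') = 1`.  Also: elementary facts on `cc` needed by the global
count for `r = 2` (`cc (√a) = √a ↔ a > 0`).
-/
import Fermat.Agent.S15.Oo.Abstract
import Fermat.Agent.S19.Glue.Pairing
import Fermat.Agent.S17.W.Cusp
import Fermat.Prelude.Def_GaloisRep_ComplexConjugation

set_option autoImplicit false

noncomputable section

namespace Fermat.Agent.S15.Oo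

open ModularCurve AlgebraicCurve Fermat.Agent.S19 Fermat.Agent.S19.Glue

/-- `w * conj w ≠ -1`. -/
theorem mul_complexConjugation_ne (w : Qb) : w * complexConjugation w ≠ -1 := by
  intro h
  have h1 := congrArg complexEmbedding h
  rw [map_mul, complexEmbedding_complexConjugation, map_neg, map_one, Complex.mul_conj] at h1
  have h2 := congrArg Complex.re h1
  rw [Complex.ofReal_re, Complex.neg_re, Complex.one_re] at h2
  have h3 := Complex.normSq_nonneg (complexEmbedding w)
  linarith

/-- a square root of a positive rational is fixed by complex conjugation -/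
theorem complexConjugation_sqrt_of_pos {a : ℚ} (ha : 0 < a) {s : Qb}
    (hs : s ^ 2 = algebraMap ℚ Qb a) : complexConjugation s = s := by
  apply complexEmbedding.toRingHom.injective
  show complexEmbedding (complexConjugation s) = complexEmbedding s
  rw [complexEmbedding_complexConjugation]
  have h1 : (complexEmbedding s) ^ 2 = ((a : ℝ) : ℂ) := by
    rw [← map_pow, hs, AlgHom.commutes]
    simp
  set z := complexEmbedding s with hz
  -- `z ^ 2` is a positive real, so `z` is real
  have him : z.im = 0 := by
    have h2 := congrArg Complex.im h1
    have h3 := congrArg Complex.re h1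
    rw [sq, Complex.mul_im, Complex.ofReal_im] at h2
    rw [sq, Complex.mul_re, Complex.ofReal_re] at h3
    have ha' : (0 : ℝ) < (a : ℝ) := by exact_mod_cast ha
    by_contra him
    have hre : z.re = 0 := by
      have : 2 * z.re * z.im = 0 := by linarith
      rcases mul_eq_zero.1 this with h | h
      · linarith [h]
      · exact absurd h him
    rw [hre] at h3
    nlinarith [mul_self_nonneg z.im]
  exact Complex.conj_eq_iff_im.2 him

/-- a square root of a negative rational is negated by complex conjugation -/
theorem complexConjugation_sqrt_of_neg {a : ℚ} (ha : a < 0) {s : Qb}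
    (hs : s ^ 2 = algebraMap ℚ Qb a) : complexConjugation s = -s := by
  apply complexEmbedding.toRingHom.injective
  show complexEmbedding (complexConjugation s) = complexEmbedding (-s)
  rw [complexEmbedding_complexConjugation, map_neg]
  have h1 : (complexEmbedding s) ^ 2 = ((a : ℝ) : ℂ) := by
    rw [← map_pow, hs, AlgHom.commutes]
    simp
  set z := complexEmbedding s with hz
  have hre : z.re = 0 := by
    have h2 := congrArg Complex.im h1
    have h3 := congrArg Complex.re h1
    rw [sq, Complex.mul_im, Complex.ofReal_im] at h2
    rw [sq, Complex.mul_re, Complex.ofReal_re] at h3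
    have ha' : (a : ℝ) < 0 := by exact_mod_cast ha
    by_contra hre
    have him : z.im = 0 := by
      have : 2 * z.re * z.im = 0 := by linarith
      rcases mul_eq_zero.1 this with h | h
      · exact absurd (by linarith [h]) hre
      · exact h
    rw [him] at h3
    nlinarith [mul_self_nonneg z.re]
  apply Complex.ext
  · rw [Complex.conj_re, Complex.neg_re, hre, neg_zero]
  · rw [Complex.conj_im, Complex.neg_im]

theorem gal_complexConjugation_mul_self (N : ℕ) :
    gal N complexConjugation * gal N complexConjugation = 1 := by
  rw [← map_mul, complexConjugation_mul_self, map_one]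

/-- **Isotropy at infinity** for `J₀(N)`. -/
theorem weil_two_complexConjugation (N : ℕ) [NeZero N] {R R' : JZero N}
    (hR : complexConjugation • ((2 : ℤ) • R) = (2 : ℤ) • R)
    (hR' : complexConjugation • ((2 : ℤ) • R') = (2 : ℤ) • R') :
    Weil.weil 2 (complexConjugation • R - R) (complexConjugation • R' - R') = 1 := by
  have := isFF1 N
  have := nonConst N
  exact weil_two_conj_sub (c := gal N complexConjugation) (gal_complexConjugation_mul_self N)
    mul_complexConjugation_ne (Fermat.Agent.S17.W.smul_cusp N complexConjugation) hR hR'

end Fermat.Agent.S15.Oo
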