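/-
S15, contract `LocInf` (isotropy of the Kummer values at the complex conjugation).  Owner: helper75.
-/
import Fermat.Agent.S15.Contracts
import Fermat.Agent.S15.Oo.Main

set_option autoImplicit false

namespace Fermat.Agent.S15

open ModularCurve AlgebraicCurve

theorem locInf (N : ℕ) [NeZero N] : LocInf N := by
  intro R R' hR hR'
  have h : ∀ S : JZero N, IsDivPt N 2 S →
      complexConjugation • ((2 : ℤ) • S) = (2 : ℤ) • S := by
    intro S hS
    have h1 := hS complexConjugation
    rw [show (2 : ℤ) • S = (2 : ℕ) • S by rw [← natCast_zsmul]; rfl]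
    exact h1
  exact Oo.weil_two_complexConjugation N (h R hR) (h R' hR')

end Fermat.Agent.S15
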